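import Mathlib.NumberTheory.Bertrand
import Mathlib.NumberTheory.Divisors
import Mathlib.Data.Nat.ChineseRemainder
import Mathlib.Data.Nat.Factorization.Basic
import Mathlib.NumberTheory.ArithmeticFunction.Misc
import Mathlib.Tactic

/-!
# Divisor numbers along an arithmetic progression

A class modulo `A` in which `t ^ j ∣ d (n + j)` for all `j ≤ k`, and the average of the divisor
number over a progression coprime to its difference.
-/

set_option autoImplicit false

noncomputable section

open Finset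

namespace FA.ErdosLambert

/-- Primes above `K` which grow at most geometrically. -/
theorem exists_primes {K : ℕ} (hK : 0 < K) : ∃ P : ℕ → ℕ, StrictMono P ∧
    ∀ r, (P r).Prime ∧ K < P r ∧ P r ≤ K * 2 ^ (r + 1) := by
  choose f hf using fun n : ℕ => Nat.exists_prime_lt_and_le_two_mul (n + 1) n.succ_ne_zero
  -- `g n` is a prime in `(n, 2 n]` for positive `n`
  set g : ℕ → ℕ := fun n => f (n - 1) with hg
  have hgs : ∀ n, 0 < n → (g n).Prime ∧ n < g n ∧ g n ≤ 2 * n := fun n hn => by
    have h := hf (n - 1)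
    rwa [Nat.sub_add_cancel hn] at h
  have key : ∀ r, 0 < g^[r] K ∧ g^[r] K ≤ K * 2 ^ r ∧ K ≤ g^[r] K := by
    intro r
    induction r with
    | zero => simp [hK]
    | succ r ih =>
      obtain ⟨-, h1, h2⟩ := hgs _ ih.1
      rw [Function.iterate_succ_apply', pow_succ]
      refine ⟨by omega, ?_, by omega⟩
      nlinarith [ih.2.1]
  refine ⟨fun r => g^[r + 1] K, strictMono_nat_of_lt_succ fun r => ?_, fun r => ?_⟩
  · show g^[r + 1] K < g^[r + 1 + 1] K
    rw [Function.iterate_succ_apply' g (r + 1)]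
    exact (hgs _ (key (r + 1)).1).2.1
  · refine ⟨?_, ?_, (key (r + 1)).2.1⟩
    · simp only [Function.iterate_succ_apply']
      exact (hgs _ (key r).1).1
    · simp only [Function.iterate_succ_apply']
      exact lt_of_le_of_lt (key r).2.2 (hgs _ (key r).1).2.1

/-- Multiples in a progression. -/
theorem card_dvd_progression_le {A c e : ℕ} (hc : c.Coprime A) (X : ℕ) :
    #((range X).filter fun i => e ∣ c + A * i) ≤ X / e + 1 := by
  rw [← card_range (X / e + 1)]
  refine card_le_card_of_injOn (fun i => i / e) (fun i hi => ?_) fun i hi i' hi' hii => ?_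
  · simp only [coe_range, Set.mem_Iio]
    exact Nat.lt_succ_of_le (Nat.div_le_div_right (mem_range.1 (mem_filter.1 hi).1).le)
  · obtain ⟨-, hd⟩ := mem_filter.1 hi
    obtain ⟨-, hd'⟩ := mem_filter.1 hi'
    have hco : e.Coprime A := by
      rw [Nat.coprime_iff_gcd_eq_one]
      refine Nat.eq_one_of_dvd_coprimes hc ?_ (Nat.gcd_dvd_right _ _)
      exact (Nat.dvd_add_left (Dvd.dvd.mul_right (Nat.gcd_dvd_right e A) i)).1
        ((Nat.gcd_dvd_left e A).trans hd)
    have h1 : c + A * i ≡ c + A * i' [MOD e] :=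
      (Nat.modEq_zero_iff_dvd.2 hd).trans (Nat.modEq_zero_iff_dvd.2 hd').symm
    have h2 : i % e = i' % e :=
      Nat.ModEq.cancel_left_of_coprime hco (Nat.ModEq.add_left_cancel' c h1)
    calc i = e * (i / e) + i % e := (Nat.div_add_mod i e).symm
      _ = e * (i' / e) + i' % e := by rw [show i / e = i' / e from hii, h2]
      _ = i' := Nat.div_add_mod i' e

theorem sum_div_two_pow_le (X m : ℕ) : ∑ e ∈ Icc 1 (2 ^ m), X / e ≤ (m + 1) * X := by
  induction m with
  | zero => simp
  | succ m ih =>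
    have hsplit : Icc 1 (2 ^ (m + 1)) = Icc 1 (2 ^ m) ∪ Ioc (2 ^ m) (2 ^ (m + 1)) := by
      have := Nat.one_le_two_pow (n := m)
      have : 2 ^ (m + 1) = 2 * 2 ^ m := by ring
      ext e
      simp only [mem_union, mem_Icc, mem_Ioc]
      omega
    rw [hsplit, sum_union (disjoint_left.2 fun e h1 h2 => by
      simp only [mem_Icc, mem_Ioc] at h1 h2; omega), add_mul _ 1 X, one_mul]
    refine add_le_add ih ?_
    calc ∑ e ∈ Ioc (2 ^ m) (2 ^ (m + 1)), X / e
        ≤ ∑ _e ∈ Ioc (2 ^ m) (2 ^ (m + 1)), X / 2 ^ m :=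
          sum_le_sum fun e he => Nat.div_le_div_left (mem_Ioc.1 he).1.le (by positivity)
      _ = 2 ^ m * (X / 2 ^ m) := by
          rw [sum_const, Nat.card_Ioc, smul_eq_mul, pow_succ, mul_two, Nat.add_sub_cancel]
      _ ≤ X := Nat.mul_div_le _ _

/-- The divisors are twice those below the square root. -/
theorem card_divisors_le_small {M m : ℕ} (hM : M ≤ 2 ^ (2 * m)) :
    #M.divisors ≤ 2 * #((Icc 1 (2 ^ m)).filter fun e => e ∣ M) := by
  set S := (Icc 1 (2 ^ m)).filter fun e => e ∣ M
  have hsub : M.divisors ⊆ S ∪ S.image fun e => M / e := by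
    intro d hd
    obtain ⟨hdM, hM0⟩ := Nat.mem_divisors.1 hd
    have hd0 : 0 < d := Nat.pos_of_mem_divisors hd
    rcases le_or_gt d (2 ^ m) with h | h
    · exact mem_union_left _ (mem_filter.2 ⟨mem_Icc.2 ⟨hd0, h⟩, hdM⟩)
    · refine mem_union_right _ (mem_image.2 ⟨M / d, mem_filter.2 ⟨mem_Icc.2 ⟨?_, ?_⟩,
        Nat.div_dvd_of_dvd hdM⟩, Nat.div_div_self hdM hM0⟩)
      · exact Nat.div_pos (Nat.le_of_dvd (Nat.pos_of_ne_zero hM0) hdM) hd0
      · refine Nat.div_le_of_le_mul ?_
        rw [two_mul, pow_add] at hM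
        exact hM.trans (Nat.mul_le_mul_right _ h.le)
  refine (card_le_card hsub).trans ((card_union_le _ _).trans ?_)
  have := card_image_le (f := fun e => M / e) (s := S)
  omega

/-- The average of the divisor number. -/
theorem sum_card_divisors_le {A c : ℕ} (hc : c.Coprime A) (X m : ℕ)
    (hM : c + A * X ≤ 2 ^ (2 * m)) :
    ∑ i ∈ range X, #(c + A * i).divisors ≤ 2 * ((m + 1) * X + 2 ^ m) := by
  calc ∑ i ∈ range X, #(c + A * i).divisors
      ≤ ∑ i ∈ range X, 2 * #((Icc 1 (2 ^ m)).filter fun e => e ∣ c + A * i) :=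
        sum_le_sum fun i hi => card_divisors_le_small (le_trans
          (Nat.add_le_add_left (Nat.mul_le_mul_left A (mem_range.1 hi).le) c) hM)
    _ = 2 * ∑ e ∈ Icc 1 (2 ^ m), #((range X).filter fun i => e ∣ c + A * i) := by
        simp only [← mul_sum, card_filter]
        rw [sum_comm]
    _ ≤ 2 * ∑ e ∈ Icc 1 (2 ^ m), (X / e + 1) :=
        Nat.mul_le_mul_left 2 (sum_le_sum fun e he =>
          card_dvd_progression_le hc X)
    _ ≤ 2 * ((m + 1) * X + 2 ^ m) := by
        refine Nat.mul_le_mul_left 2 ?_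
        rw [sum_add_distrib, sum_const, Nat.card_Icc, smul_eq_mul, mul_one, Nat.add_sub_cancel]
        exact Nat.add_le_add_right (sum_div_two_pow_le X m) _

/-- The class modulo `A`. -/
theorem exists_class {t k K : ℕ} (ht : 2 ≤ t) (hK0 : 0 < K) :
    ∃ A n₀ : ℕ, 0 < A ∧ n₀ < A ∧ A ≤ (K * 2 ^ (k * k)) ^ (t * (k * k)) ∧
      (∀ j, k < j → j ≤ K → (n₀ + j).Coprime A) ∧
      ∀ j i, 1 ≤ j → j ≤ k → t ^ j ∣ #(n₀ + j + A * i).divisors := by
  classical
  obtain ⟨P, hPmono, hP⟩ := exists_primes hK0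
  -- the index `(j, l)`, `l < j ≤ k`, has the prime number `(j - 1) k + l`
  set I : Finset (ℕ × ℕ) := (Icc 1 k ×ˢ range k).filter fun q => q.2 < q.1 with hI
  have hmem : ∀ q ∈ I, 1 ≤ q.1 ∧ q.1 ≤ k ∧ q.2 < q.1 := fun q hq => by
    simp only [hI, mem_filter, mem_product, mem_Icc, mem_range] at hq
    omega
  set p : ℕ × ℕ → ℕ := fun q => P ((q.1 - 1) * k + q.2) with hp
  have hidx : ∀ q ∈ I, (q.1 - 1) * k + q.2 < k * k := fun q hq => by
    obtain ⟨h1, h2, h3⟩ := hmem q hq
    have h4 : (q.1 - 1) * k ≤ (k - 1) * k := Nat.mul_le_mul_right k (by omega)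
    have h5 : (k - 1) * k + k = k * k := by
      rw [Nat.sub_mul, one_mul, Nat.sub_add_cancel (Nat.le_mul_self k)]
    omega
  have hinj : Set.InjOn p I := fun q hq q' hq' he => by
    obtain ⟨h1, h2, h3⟩ := hmem q hq
    obtain ⟨h1', h2', h3'⟩ := hmem q' hq'
    have h := hPmono.injective he
    have hl : q.2 = q'.2 := by
      have := congrArg (fun x => x % k) h
      simpa [Nat.add_mod, Nat.mod_eq_of_lt (show q.2 < k by omega),
        Nat.mod_eq_of_lt (show q'.2 < k by omega)] using this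
    rw [hl, Nat.add_right_cancel_iff] at h
    have := Nat.eq_of_mul_eq_mul_right (by omega : 0 < k) h
    exact Prod.ext (by omega) hl
  have hprime : ∀ q, (p q).Prime := fun q => (hP _).1
  have hbig : ∀ q, K < p q := fun q => (hP _).2.1
  set A := ∏ q ∈ I, p q ^ t with hA
  have hpp : Set.Pairwise (I : Set (ℕ × ℕ)) (Function.onFun Nat.Coprime fun q => p q ^ t) :=
    fun q hq q' hq' hne => Nat.Coprime.pow _ _
      ((Nat.coprime_primes (hprime q) (hprime q')).2 fun e => hne (hinj hq hq' e))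
  have hne0 : ∀ q ∈ I, p q ^ t ≠ 0 := fun q _ => pow_ne_zero _ (hprime q).ne_zero
  obtain ⟨n₀, hn₀, hlt⟩ : ∃ n₀, (∀ q ∈ I, n₀ + q.1 ≡ p q ^ (t - 1) [MOD p q ^ t]) ∧ n₀ < A := by
    refine ⟨Nat.chineseRemainderOfFinset (fun q => p q ^ (t - 1) + (p q ^ t * q.1 - q.1))
      (fun q => p q ^ t) I hne0 hpp, fun q hq => ?_,
      Nat.chineseRemainderOfFinset_lt_prod _ _ hne0 hpp⟩
    refine (((Nat.chineseRemainderOfFinset _ _ I hne0 hpp).2 q hq).add_right q.1).trans ?_
    rw [add_assoc, Nat.sub_add_cancel (Nat.le_mul_of_pos_left _ (pow_pos (hprime q).pos t))]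
    simp [Nat.ModEq]
  have hdvdA : ∀ q ∈ I, p q ^ t ∣ A := fun q hq => dvd_prod_of_mem (fun q => p q ^ t) hq
  refine ⟨A, n₀, prod_pos fun q _ => pow_pos (hprime q).pos t, hlt, ?_, ?_, ?_⟩
  · calc A ≤ ∏ _q ∈ I, (K * 2 ^ (k * k)) ^ t := prod_le_prod' fun q hq =>
          Nat.pow_le_pow_left ((hP _).2.2.trans (Nat.mul_le_mul_left K
            (Nat.pow_le_pow_right two_pos (hidx q hq)))) t
      _ = (K * 2 ^ (k * k)) ^ (t * #I) := by rw [prod_const, ← pow_mul]
      _ ≤ (K * 2 ^ (k * k)) ^ (t * (k * k)) := by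
          refine Nat.pow_le_pow_right (by positivity) (Nat.mul_le_mul_left t ?_)
          refine (card_filter_le _ _).trans ?_
          simp
  · intro j hkj hjK
    refine Nat.Coprime.prod_right fun q hq => Nat.Coprime.pow_right t ?_
    refine ((hprime q).coprime_iff_not_dvd.2 fun hdvd => ?_).symm
    -- `p` would divide `j - q.1`
    have h2 : p q ∣ n₀ + q.1 := by
      have h := (hn₀ q hq).of_dvd (dvd_pow_self (p q) (by omega : t ≠ 0))
      exact Nat.modEq_zero_iff_dvd.1 (h.trans (Nat.modEq_zero_iff_dvd.2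
        (dvd_pow_self (p q) (by omega : t - 1 ≠ 0))))
    obtain ⟨h1, hq1, -⟩ := hmem q hq
    have h3 : p q ∣ n₀ + j - (n₀ + q.1) := Nat.dvd_sub hdvd h2
    have h4 := Nat.le_of_dvd (by omega) h3
    have h5 := hbig q
    omega
  · intro j i hj hjk
    set M := n₀ + j + A * i with hM
    have hM0 : M ≠ 0 := by omega
    have hexp : ∀ l < j, M.factorization (p (j, l)) = t - 1 := fun l hl => by
      have hq : (j, l) ∈ I := by
        simp only [hI, mem_filter, mem_product, mem_Icc, mem_range]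
        omega
      set P' := p (j, l) with hP'
      have hpP : P'.Prime := hprime _
      have h1 : M ≡ P' ^ (t - 1) [MOD P' ^ t] := by
        have h2 : A * i ≡ 0 [MOD P' ^ t] :=
          Nat.modEq_zero_iff_dvd.2 ((hdvdA _ hq).mul_right i)
        simpa [hM] using (hn₀ _ hq).add h2
      have h3 : P' ^ (t - 1) ∣ M := by
        have h := h1.of_dvd (pow_dvd_pow P' (Nat.sub_le t 1))
        exact Nat.modEq_zero_iff_dvd.1 (h.trans (Nat.modEq_zero_iff_dvd.2 dvd_rfl))
      have h4 : ¬P' ^ t ∣ M := fun h => by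
        have h5 := Nat.le_of_dvd (pow_pos hpP.pos _)
          (Nat.modEq_zero_iff_dvd.1 (h1.symm.trans (Nat.modEq_zero_iff_dvd.2 h)))
        exact absurd h5 (not_le.2 (Nat.pow_lt_pow_right hpP.one_lt (by omega)))
      rw [hpP.pow_dvd_iff_le_factorization hM0] at h3 h4
      omega
    set Q := (range j).image fun l => p (j, l) with hQ
    have hQc : #Q = j := by
      rw [hQ, card_image_of_injOn, card_range]
      intro l hl l' hl' he
      have hlj := mem_range.1 hl
      have hlj' := mem_range.1 hl'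
      have hmemI : ∀ z < j, (j, z) ∈ I := fun z hz => by
        simp only [hI, mem_filter, mem_product, mem_Icc, mem_range]
        omega
      have := @hinj (j, l) (hmemI l hlj) (j, l') (hmemI l' hlj') he
      exact (Prod.ext_iff.1 this).2
    have hsub : Q ⊆ M.primeFactors := fun x hx => by
      obtain ⟨l, hl, rfl⟩ := mem_image.1 hx
      have h := hexp l (mem_range.1 hl)
      rw [← Nat.support_factorization, Finsupp.mem_support_iff, h]
      omega
    have hprod : t ^ j = ∏ x ∈ Q, (M.factorization x + 1) := by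
      rw [prod_congr rfl fun x hx => show M.factorization x + 1 = t by
        obtain ⟨l, hl, rfl⟩ := mem_image.1 hx
        rw [hexp l (mem_range.1 hl)]
        omega, prod_const, hQc]
    rw [Nat.card_divisors hM0, hprod]
    exact prod_dvd_prod_of_subset _ _ _ hsub

end FA.ErdosLambert

end
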