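import Mathlib.NumberTheory.TsumDivisorsAntidiagonal
import Mathlib.Analysis.SpecificLimits.Normed
import Mathlib.Analysis.Real.Sqrt
import Mathlib.NumberTheory.Real.Irrational
import Fermat.Agent.ErdosLambert.Divisors

/-!
# The irrationality of `∑ d (n) t ^ (-n)`

If `b S` is an integer, then so is `b ∑_{j > k} d (n + j) t ^ (-j)` whenever `t ^ j ∣ d (n + j)`
for `j ≤ k`; an average over such `n` makes it positive and smaller than one.
-/

set_option autoImplicit false

noncomputable section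

open Finset Filter Topology

namespace FA.ErdosLambert

theorem summable_card_divisors (m : ℕ) {r : ℝ} (h0 : 0 ≤ r) (h1 : r < 1) :
    Summable fun n => (#(m + n).divisors : ℝ) * r ^ n := by
  refine Summable.of_nonneg_of_le (f := fun n : ℕ => (m : ℝ) * r ^ n + (n : ℝ) * r ^ n)
    (fun n => by positivity) (fun n => ?_) ?_
  · rw [← add_mul]
    exact mul_le_mul_of_nonneg_right (by exact_mod_cast Nat.card_divisors_le_self (m + n))
      (pow_nonneg h0 n)
  · refine ((summable_geometric_of_lt_one h0 h1).mul_left _).add ?_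
    simpa using summable_pow_mul_geometric_of_norm_lt_one 1
      (by rwa [Real.norm_eq_abs, abs_of_nonneg h0])

/-- A class of `n` with a tiny tail. -/
theorem exists_small_tail {t : ℕ} (ht : 2 ≤ t) {δ : ℝ} (hδ : 0 < δ) :
    ∃ n k : ℕ, (∀ j, 1 ≤ j → j ≤ k → t ^ j ∣ #(n + j).divisors) ∧
      ∑' l, (#(n + (k + 1) + l).divisors : ℝ) * ((t : ℝ)⁻¹) ^ (k + 1 + l) < δ := by
  -- the choice of `k`
  obtain ⟨k, hk1, hk2, hk3⟩ : ∃ k : ℕ, 1 ≤ k ∧ 14 * t + 9 ≤ k * k ∧
      ((14 * t + 30 : ℕ) : ℝ) * ((k : ℝ) ^ 4 * (1 / 2) ^ k) < δ := by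
    have h := (tendsto_pow_const_mul_const_pow_of_lt_one 4
      (by norm_num : (0 : ℝ) ≤ 1 / 2) (by norm_num)).const_mul ((14 * t + 30 : ℕ) : ℝ)
    rw [mul_zero] at h
    obtain ⟨k, hk, hk'⟩ := ((h.eventually_lt_const hδ).and
      (eventually_ge_atTop (14 * t + 9))).exists
    exact ⟨k, by omega, hk'.trans (Nat.le_mul_self k), hk⟩
  set K := k ^ 6 with hK
  have hK0 : 0 < K := pow_pos hk1 6
  obtain ⟨A, n₀, hA0, hn₀, hAle, hcop, hdvd⟩ := exists_class ht hK0 (k := k)
  -- everything is below a power of two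
  set E := (6 * k + k * k) * (t * (k * k)) with hE
  have hKE : K ≤ 2 ^ (6 * k) := by
    rw [hK, mul_comm 6 k, pow_mul]
    exact Nat.pow_le_pow_left Nat.lt_two_pow_self.le 6
  have hAE : A ≤ 2 ^ E := by
    refine hAle.trans ?_
    rw [hE, pow_mul 2 (6 * k + k * k)]
    refine Nat.pow_le_pow_left ?_ _
    rw [pow_add]
    exact Nat.mul_le_mul_right _ hKE
  have h4 : k * k * (k * k) = k ^ 4 := by ring
  have hEle : E ≤ 7 * t * k ^ 4 := by
    rw [hE, ← h4]
    calc (6 * k + k * k) * (t * (k * k)) ≤ (7 * (k * k)) * (t * (k * k)) :=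
          Nat.mul_le_mul_right _ (by nlinarith [Nat.le_mul_self k])
      _ = _ := by ring
  have hk4 : 1 ≤ k ^ 4 := Nat.one_le_pow _ _ hk1
  have hE6 : 6 * k ≤ E := by
    rw [hE]
    exact le_trans (Nat.le_add_right _ (k * k))
      (Nat.le_mul_of_pos_right _ (Nat.mul_pos (by omega) (Nat.mul_pos hk1 hk1)))
  have hKbig : 2 * E + 4 + k ≤ K := by
    have hk4' : k ≤ k ^ 4 := Nat.le_self_pow (by norm_num) k
    have e : (14 * t + 5) * k ^ 4 ≤ K := by
      rw [hK, show k ^ 6 = k * k * k ^ 4 by ring]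
      exact Nat.mul_le_mul_right _ (by omega)
    rw [add_mul, mul_assoc] at e
    rw [mul_assoc] at hEle
    omega
  set X := 2 ^ E with hX
  set r : ℝ := (t : ℝ)⁻¹ with hr
  have ht' : (2 : ℝ) ≤ t := by exact_mod_cast ht
  have hr0 : 0 ≤ r := by positivity
  have hr2 : r ≤ 1 / 2 := by
    rw [hr, one_div]
    exact inv_anti₀ two_pos ht'
  have hX2 : 2 ^ (2 * (E + 1)) = 4 * (X * X) := by rw [hX, ← pow_add]; ring
  have hAX : A * X ≤ X * X := Nat.mul_le_mul_right _ hAE
  have hKX : K ≤ X := hKE.trans (Nat.pow_le_pow_right two_pos hE6)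
  have hXX : X ≤ X * X := Nat.le_mul_self X
  -- the average of the middle terms
  set f : ℕ → ℝ := fun i => ∑ j ∈ Ioc k K, (#(n₀ + j + A * i).divisors : ℝ) * r ^ j with hf
  have hgeo : ∑ j ∈ Ioc k K, r ^ j ≤ (1 / 2) ^ k := by
    refine (sum_le_sum fun j _ => pow_le_pow_left₀ hr0 hr2 j).trans ?_
    have hrange : Ioc k K = (range (K - k)).image fun l => k + 1 + l := by
      ext j
      simp only [mem_Ioc, mem_image, mem_range]
      exact ⟨fun h => ⟨j - (k + 1), by omega, by omega⟩, fun ⟨l, hl, e⟩ => by omega⟩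
    rw [hrange, sum_image fun a _ b _ h => Nat.add_left_cancel h]
    simp only [pow_add, ← mul_sum]
    calc (1 / 2 : ℝ) ^ k * (1 / 2) ^ 1 * ∑ l ∈ range (K - k), (1 / 2 : ℝ) ^ l
        ≤ (1 / 2 : ℝ) ^ k * (1 / 2) ^ 1 * 2 :=
          mul_le_mul_of_nonneg_left (sum_geometric_two_le _) (by positivity)
      _ = (1 / 2) ^ k := by ring
  have hsum : ∑ i ∈ range X, f i ≤ (X : ℝ) * ((2 * E + 8 : ℕ) * (1 / 2) ^ k) := by
    calc ∑ i ∈ range X, f i
        = ∑ j ∈ Ioc k K, r ^ j * ∑ i ∈ range X, (#(n₀ + j + A * i).divisors : ℝ) := by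
          simp only [hf, mul_sum]
          rw [sum_comm]
          simp only [mul_comm]
      _ ≤ ∑ j ∈ Ioc k K, r ^ j * ((X * (2 * E + 8) : ℕ) : ℝ) := by
          refine sum_le_sum fun j hj => mul_le_mul_of_nonneg_left ?_ (pow_nonneg hr0 j)
          obtain ⟨hj1, hj2⟩ := mem_Ioc.1 hj
          have h := sum_card_divisors_le (hcop j hj1 hj2) X (E + 1) (by omega)
          have h2 : 2 * ((E + 1 + 1) * X + 2 ^ (E + 1)) = X * (2 * E + 8) := by
            rw [pow_succ, ← hX]; ring
          rw [h2] at h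
          exact_mod_cast h
      _ ≤ ((1 / 2) ^ k) * ((X * (2 * E + 8) : ℕ) : ℝ) := by
          rw [← sum_mul]
          exact mul_le_mul_of_nonneg_right hgeo (Nat.cast_nonneg _)
      _ = _ := by push_cast; ring
  obtain ⟨i, hi, hfi⟩ := exists_le_of_sum_le (f := f)
    (g := fun _ => ((2 * E + 8 : ℕ) : ℝ) * (1 / 2) ^ k)
    (Finset.nonempty_range_iff.2 (by positivity : X ≠ 0))
    (by rw [sum_const, card_range, nsmul_eq_mul]; exact hsum)
  set n := n₀ + A * i with hn
  refine ⟨n, k, fun j hj hjk => by rw [hn, add_right_comm]; exact hdvd j i hj hjk, ?_⟩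
  have hlt : r < 1 := by linarith
  have hs : Summable fun l => (#(n + (k + 1) + l).divisors : ℝ) * r ^ (k + 1 + l) := by
    simpa [pow_add, mul_comm, mul_left_comm, mul_assoc] using
      (summable_card_divisors (n + (k + 1)) hr0 hlt).mul_left (r ^ (k + 1))
  rw [← hs.sum_add_tsum_nat_add (K - k)]
  -- the far terms
  set B := 2 ^ (2 * (E + 1)) with hB
  have hAi : A * i ≤ X * X := le_trans (Nat.mul_le_mul_left A (mem_range.1 hi).le) hAX
  have hfar : ∑' l, (#(n + (k + 1) + (l + (K - k))).divisors : ℝ) *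
      r ^ (k + 1 + (l + (K - k))) ≤ (1 / 2 : ℝ) ^ k := by
    have hsum2 : Summable fun l : ℕ => (B : ℝ) * (1 / 2) ^ (K + 1) * ((l + 1) * (1 / 2) ^ l) := by
      refine Summable.mul_left _ ?_
      have h1 : Summable fun l : ℕ => (l : ℝ) * (1 / 2) ^ l := by
        simpa using summable_pow_mul_geometric_of_norm_lt_one 1
          (by norm_num : ‖(1 / 2 : ℝ)‖ < 1)
      simpa [add_mul] using h1.add summable_geometric_two
    refine (((summable_nat_add_iff (K - k)).2 hs).tsum_le_tsum (fun l => ?_) hsum2).trans ?_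
    · rw [show k + 1 + (l + (K - k)) = K + 1 + l by omega, ← mul_assoc, mul_right_comm,
        mul_comm (#(_ : ℕ).divisors : ℝ), pow_add]
      have hd : (#(n + (k + 1) + (l + (K - k))).divisors : ℝ) ≤ (B : ℝ) * (l + 1) := by
        refine le_trans (Nat.cast_le.2 (Nat.card_divisors_le_self _)) ?_
        have h : n + (k + 1) + (l + (K - k)) ≤ B * (l + 1) := by
          have : l ≤ B * l := Nat.le_mul_of_pos_left _ (by positivity)
          rw [mul_add, mul_one]
          omega
        exact_mod_cast h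
      calc r ^ (K + 1) * r ^ l * (#(n + (k + 1) + (l + (K - k))).divisors : ℝ)
          ≤ (1 / 2) ^ (K + 1) * (1 / 2) ^ l * ((B : ℝ) * (l + 1)) := by
            refine mul_le_mul ?_ hd (Nat.cast_nonneg _) (by positivity)
            exact mul_le_mul (pow_le_pow_left₀ hr0 hr2 _) (pow_le_pow_left₀ hr0 hr2 _)
              (pow_nonneg hr0 _) (by positivity)
        _ = _ := by ring
    · rw [tsum_mul_left]
      have h1 : ∑' l : ℕ, ((l : ℝ) + 1) * (1 / 2) ^ l = 4 := by
        simp only [add_mul, one_mul]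
        have h0 : Summable fun l : ℕ => (l : ℝ) * (1 / 2) ^ l := by
          simpa using summable_pow_mul_geometric_of_norm_lt_one 1
            (by norm_num : ‖(1 / 2 : ℝ)‖ < 1)
        rw [Summable.tsum_add h0 summable_geometric_two,
          tsum_coe_mul_geometric_of_norm_lt_one (by norm_num : ‖(1 / 2 : ℝ)‖ < 1),
          tsum_geometric_two]
        norm_num
      rw [h1]
      have h2 : (2 : ℝ) ^ (2 * (E + 1) + 2) * (1 / 2) ^ (K + 1) ≤ (1 / 2) ^ k := by
        obtain ⟨e, he⟩ := Nat.exists_eq_add_of_le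
          (show 2 * (E + 1) + 2 + k ≤ K + 1 by omega)
        rw [he, add_assoc (2 * (E + 1) + 2) k e, pow_add (1 / 2 : ℝ) _ (k + e), ← mul_assoc,
          ← mul_pow, pow_add (1 / 2 : ℝ) k e]
        rw [show (2 : ℝ) * (1 / 2) = 1 by norm_num, one_pow, one_mul]
        exact mul_le_of_le_one_right (by positivity) (pow_le_one₀ (by norm_num) (by norm_num))
      refine le_trans (le_of_eq ?_) h2
      rw [hB, Nat.cast_pow, Nat.cast_ofNat, pow_add (2 : ℝ) (2 * (E + 1)) 2]
      ring
  have hnear : ∑ l ∈ range (K - k), (#(n + (k + 1) + l).divisors : ℝ) * r ^ (k + 1 + l) =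
      f i := by
    simp only [hf]
    refine sum_nbij' (fun l => k + 1 + l) (fun j => j - (k + 1)) ?_ ?_ ?_ ?_ ?_
    all_goals intro x hx
    all_goals simp only [mem_range, mem_Ioc] at hx ⊢
    all_goals try omega
    rw [show n₀ + (k + 1 + x) + A * i = n + (k + 1) + x by omega]
  rw [hnear]
  calc _ ≤ ((2 * E + 8 : ℕ) : ℝ) * (1 / 2) ^ k + (1 / 2) ^ k := add_le_add hfi hfar
    _ = ((2 * E + 9 : ℕ) : ℝ) * (1 / 2) ^ k := by push_cast; ring
    _ ≤ (((14 * t + 30) * k ^ 4 : ℕ) : ℝ) * (1 / 2) ^ k := by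
        refine mul_le_mul_of_nonneg_right ?_ (by positivity)
        rw [Nat.cast_le, add_mul, mul_assoc]
        rw [mul_assoc] at hEle
        omega
    _ = _ := by push_cast; ring
    _ < δ := hk3

/-- **The series is irrational.** -/
theorem irrational_divisorSeries {t : ℕ} (ht : 2 ≤ t) :
    Irrational (∑' n, (#n.divisors : ℝ) * ((t : ℝ)⁻¹) ^ n) := by
  rintro ⟨q, hq⟩
  set r : ℝ := (t : ℝ)⁻¹ with hr
  have ht0 : (0 : ℝ) < t := by positivity
  have hr0 : 0 < r := inv_pos.2 ht0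
  have hr1 : r < 1 := inv_lt_one_of_one_lt₀ (by exact_mod_cast ht)
  have hb : (0 : ℝ) < q.den := by exact_mod_cast q.den_pos
  obtain ⟨n, k, hdvd, hsmall⟩ := exists_small_tail ht (inv_pos.2 hb)
  set W := ∑' l, (#(n + (k + 1) + l).divisors : ℝ) * r ^ (k + 1 + l) with hW
  have hs : Summable fun l => (#(n + (k + 1) + l).divisors : ℝ) * r ^ (k + 1 + l) := by
    simpa [pow_add, mul_comm, mul_left_comm, mul_assoc] using
      (summable_card_divisors (n + (k + 1)) hr0.le hr1).mul_left (r ^ (k + 1))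
  have hWpos : 0 < W := hs.tsum_pos (fun l => by positivity) 0 (by
    have : 0 < #(n + (k + 1) + 0).divisors :=
      card_pos.2 ⟨1, Nat.one_mem_divisors.2 (by omega)⟩
    positivity)
  -- `W` differs from `t ^ n` times the series by an integer
  have hall : Summable fun m => (#m.divisors : ℝ) * r ^ m := by
    simpa using summable_card_divisors 0 hr0.le hr1
  choose c hc using fun j : ℕ => show ∃ c : ℕ, 1 ≤ j → j ≤ k → #(n + j).divisors = t ^ j * c by
    by_cases h : 1 ≤ j ∧ j ≤ k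
    · obtain ⟨c, hc⟩ := hdvd j h.1 h.2
      exact ⟨c, fun _ _ => hc⟩
    · exact ⟨0, fun h1 h2 => absurd ⟨h1, h2⟩ h⟩
  have hT : (t : ℝ) ^ n * ∑' m, (#m.divisors : ℝ) * r ^ m =
      ((∑ m ∈ range (n + 1), #m.divisors * t ^ (n - m) + ∑ j ∈ range k, c (j + 1) : ℕ) : ℝ)
        + W := by
    rw [← hall.sum_add_tsum_nat_add (n + (k + 1)), mul_add, show n + (k + 1) = n + 1 + k by omega,
      sum_range_add, mul_add, mul_sum, mul_sum, ← tsum_mul_left]
    push_cast
    congr 1
    · congr 1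
      · refine sum_congr rfl fun m hm => ?_
        rw [mem_range] at hm
        rw [mul_left_comm, hr, inv_pow, ← div_eq_mul_inv, pow_sub₀ _ ht0.ne' (by omega),
          div_eq_mul_inv]
      · refine sum_congr rfl fun j hj => ?_
        rw [mem_range] at hj
        rw [show n + 1 + j = n + (j + 1) by omega, hc (j + 1) (by omega) (by omega),
          pow_add r, hr, inv_pow, inv_pow]
        push_cast
        field_simp
    · refine tsum_congr fun l => ?_
      rw [show l + (n + 1 + k) = n + (k + 1) + l by omega, add_assoc n, pow_add, hr, inv_pow,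
        inv_pow]
      field_simp
  rw [← hq] at hT
  set Z := ∑ m ∈ range (n + 1), #m.divisors * t ^ (n - m) + ∑ j ∈ range k, c (j + 1) with hZ
  have h1 : (q.den : ℝ) * W < 1 := by
    calc (q.den : ℝ) * W < q.den * (q.den : ℝ)⁻¹ := mul_lt_mul_of_pos_left hsmall hb
      _ = 1 := mul_inv_cancel₀ hb.ne'
  have h2 : (q.den : ℝ) * W = (((t : ℤ) ^ n * q.num - q.den * Z : ℤ) : ℝ) := by
    have hqd : (q : ℝ) * q.den = q.num := by exact_mod_cast q.mul_den_eq_num
    push_cast
    linear_combination (t : ℝ) ^ n * hqd - (q.den : ℝ) * hT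
  have h3 : 0 < (q.den : ℝ) * W := mul_pos hb hWpos
  rw [h2] at h1 h3
  have h4 : (0 : ℤ) < (t : ℤ) ^ n * q.num - q.den * Z := by exact_mod_cast h3
  have h5 : (t : ℤ) ^ n * q.num - q.den * Z < 1 := by exact_mod_cast h1
  omega

/-- The Lambert series equals the divisor series. -/
theorem lambert_eq {t : ℕ} (ht : 2 ≤ t) :
    ∑' n : ℕ, 1 / ((t : ℝ) ^ (n + 1) - 1) = ∑' n, (#n.divisors : ℝ) * ((t : ℝ)⁻¹) ^ n := by
  set r : ℝ := (t : ℝ)⁻¹ with hr
  have ht1 : (1 : ℝ) < t := by exact_mod_cast ht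
  have hr0 : 0 ≤ r := by positivity
  have hr1 : r < 1 := inv_lt_one_of_one_lt₀ ht1
  have h := tsum_pow_div_one_sub_eq_tsum_sigma (r := r)
    (by rwa [Real.norm_eq_abs, abs_of_nonneg hr0]) 0
  simp only [pow_zero, one_mul, ArithmeticFunction.sigma_zero_apply] at h
  rw [tsum_pnat_eq_tsum_succ (f := fun n => r ^ n / (1 - r ^ n)),
    tsum_pnat_eq_tsum_succ (f := fun n => (#n.divisors : ℝ) * r ^ n)] at h
  have hall : Summable fun m => (#m.divisors : ℝ) * r ^ m := by
    simpa using summable_card_divisors 0 hr0 hr1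
  rw [hall.tsum_eq_zero_add, Nat.divisors_zero, card_empty, Nat.cast_zero, zero_mul, zero_add,
    ← h]
  refine tsum_congr fun n => ?_
  have : (1 : ℝ) < (t : ℝ) ^ (n + 1) := one_lt_pow₀ ht1 n.succ_ne_zero
  rw [hr, inv_pow]
  field_simp

/-- **Erdős's theorem.** -/
theorem irrational_lambert {t : ℕ} (ht : 2 ≤ t) :
    Irrational (∑' n : ℕ, 1 / ((t : ℝ) ^ (n + 1) - 1)) := by
  rw [lambert_eq ht]
  exact irrational_divisorSeries ht

end FA.ErdosLambert

end
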